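import Fermat.Agent.S48.H856.IgusaConc

/-!
# S48 / Tower A1 / A1-RED, leaf R4b3 (BD-SHIFT): raising the level and `τ ↦ aτ` on `iactRing`
(helper16)

Generic lemmas on helper828's ring `H828.iactRing ι M` (holomorphic functions of level `Γ(M)`,
`E`-rational at every cusp) and helper856's bounded denominators `H856.IsBd`.

Fix `N = M * a * c` (`a, c > 0`) and `ζ ∈ Eˣ` with `ι ζ = exp(2πi/N)`.

* `shiftFun a f = (τ ↦ f(aτ))`;
* `shiftFun_mem_iactRing` : `f ∈ iactRing ι M ⟹ shiftFun a f ∈ iactRing ι N`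
  (`a = 1`: raising the level from `M` to `N = M c`; `c = 1`: the generators `f(aτ)` of the
  function field of `X₁(M; a)` at level `M a`);
* `iactShift : iactRing ι M →+* iactRing ι N`, injective, with
  `iactExp ι N (iactShift f) = qExpand (a * a * c) (iactExp ι M f)`
  (if `iactExp ι M f = g(X^M)` then the right hand side is `(g(q^a))(X^N)`);
* `iactFieldShift : IActField ι M →+* IActField ι N` and its expansion;
* `iactShift_smul_eq` : the translates: for every `γ ∈ SL₂(ℤ)` there are `γ' ∈ SL₂(ℤ)`, `e > 0`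
  and a root of unity `u = ζ ^ k` with
  `iactExp ι N (γ • iactShift f) = qExpand e (infTwist u (iactExp ι M (γ' • f)))`;
* `isBd_smul_iactShift` (**BD-SHIFT**): if all `SL₂(ℤ)`-translates of `f` have bounded
  denominators at level `M`, then all translates of `iactShift f` have bounded denominators at
  level `N`; hence `iactShift_mem_iactBd`.
* `shiftFun_compSL_of_dvd` : for `γ` with `a ∣ γ₁₀`, `(f(a·)) ∘ γ = (f ∘ γᵃ)(a·)`,
  `γᵃ = [[γ₀₀, a γ₀₁], [γ₁₀ / a, γ₁₁]]` (compatibility with the diamond operators).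
-/

set_option autoImplicit false
set_option linter.unusedSectionVars false
set_option linter.style.haveILetI false

noncomputable section

open ModularCurve HahnSeries UpperHalfPlane
open scoped MatrixGroups Manifold

namespace Fermat.Agent.S48.H16

open Fermat.Agent.S24 Fermat.Agent.S24.H997 Fermat.Agent.S24.H624 Fermat.Agent.S20.L1
open Fermat.Agent.S48.H828 Fermat.Agent.S48.H856

/-! ### the function `τ ↦ f(aτ)` -/

/-- `τ ↦ f(aτ)` (and `f` itself for `a = 0`). -/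
def shiftFun (a : ℕ) (f : ℍ → ℂ) : ℍ → ℂ := fun τ => f (infAff a 0 1 τ)

theorem shiftFun_apply (a : ℕ) (f : ℍ → ℂ) (τ : ℍ) : shiftFun a f τ = f (infAff a 0 1 τ) := rfl

theorem shiftFun_one (f : ℍ → ℂ) : shiftFun 1 f = f := by
  funext τ
  rw [shiftFun_apply, infAff_one_zero_one]

theorem shiftFun_add (a : ℕ) (f g : ℍ → ℂ) : shiftFun a (f + g) = shiftFun a f + shiftFun a g :=
  rfl

theorem shiftFun_mul (a : ℕ) (f g : ℍ → ℂ) : shiftFun a (f * g) = shiftFun a f * shiftFun a g :=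
  rfl

theorem mdiff_shiftFun {a : ℕ} (ha : 0 < a) {f : ℍ → ℂ} (hf : MDiff f) :
    MDiff (shiftFun a f) := by
  rw [UpperHalfPlane.mdifferentiable_iff]
  have hj : DifferentiableOn ℂ (f ∘ ofComplex) {z : ℂ | 0 < z.im} :=
    UpperHalfPlane.mdifferentiable_iff.mp hf
  have hmul : DifferentiableOn ℂ (fun z : ℂ => (a : ℂ) * z) {z : ℂ | 0 < z.im} :=
    (differentiable_id.const_mul (a : ℂ)).differentiableOn
  have hmaps : Set.MapsTo (fun z : ℂ => (a : ℂ) * z) {z : ℂ | 0 < z.im} {z : ℂ | 0 < z.im} := by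
    intro z hz
    simp only [Set.mem_ofPred_eq] at hz ⊢
    have : ((a : ℂ) * z).im = a * z.im := by simp
    rw [this]
    have hd' : (0 : ℝ) < a := by exact_mod_cast ha
    positivity
  refine (hj.comp hmul hmaps).congr ?_
  intro z hz
  simp only [Set.mem_ofPred_eq] at hz
  simp only [Function.comp_apply, shiftFun]
  congr 1
  apply UpperHalfPlane.ext
  rw [infAff_coe ha one_pos, ofComplex_apply_of_im_pos hz]
  have hz' : 0 < ((a : ℂ) * z).im := hmaps hz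
  rw [ofComplex_apply_of_im_pos hz']
  simp

/-- For `γ` with `a ∣ γ₁₀`: `(f(a·)) ∘ γ = (f ∘ γᵃ)(a·)`, `γᵃ = diag(a,1) γ diag(a,1)⁻¹`. -/
theorem shiftFun_compSL_of_entries {a : ℕ} (ha : 0 < a) (γ γ' : SL(2, ℤ))
    (h00 : γ' 0 0 = γ 0 0) (h01 : γ' 0 1 = a * γ 0 1) (h10 : γ 1 0 = γ' 1 0 * a)
    (h11 : γ' 1 1 = γ 1 1) (f : ℍ → ℂ) :
    compSL γ (shiftFun a f) = shiftFun a (compSL γ' f) := by
  funext τ
  show f (infAff a 0 1 (γ • τ)) = f (γ' • infAff a 0 1 τ)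
  rw [inf_aff_smul_eq (d := a) (a := a) (d' := 1) (b := 0) ha ha one_pos γ γ'
    (by rw [h00]; ring) (by rw [h01]; push_cast; ring) h10 (by rw [h11]; push_cast; ring) τ]

/-- The conjugate `γᵃ = diag(a,1) γ diag(a,1)⁻¹` of an element `γ` with `a ∣ γ₁₀`. -/
def conjDiag (a : ℕ) (γ : SL(2, ℤ)) (c : ℤ) (hc : γ 1 0 = (a : ℤ) * c) : SL(2, ℤ) :=
  ⟨!![γ 0 0, a * γ 0 1; c, γ 1 1], by
    have hdet := inf_sl_det γ
    rw [Matrix.det_fin_two_of]
    rw [hc] at hdet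
    linear_combination hdet⟩

theorem shiftFun_compSL_of_dvd {a : ℕ} (ha : 0 < a) (γ : SL(2, ℤ)) (c : ℤ)
    (hc : γ 1 0 = (a : ℤ) * c) (f : ℍ → ℂ) :
    compSL γ (shiftFun a f) = shiftFun a (compSL (conjDiag a γ c hc) f) :=
  shiftFun_compSL_of_entries ha γ (conjDiag a γ c hc) (by simp [conjDiag])
    (by simp [conjDiag]) (by simp [conjDiag, hc]; ring) (by simp [conjDiag]) f

/-! ### expansions of the translates of `f(aτ)` -/

section Core

variable {E : Type*} [Field E] [CharZero E] {ι : E →+* ℂ} {M N a c : ℕ} [NeZero M] [NeZero N]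

theorem shift_root (ζ : Eˣ) (hζ : Units.map (ι : E →* ℂ) ζ = infRoot 1 N) (b : ℤ) {d k : ℕ}
    (hd : 0 < d) (hk : 0 < k) (h : N = d * k) :
    Units.map (ι : E →* ℂ) (ζ ^ (b * k)) = infRoot b d := by
  rw [map_zpow, hζ, iact_infRoot_one_zpow, iact_infRoot_mul b hd hk h]

/-- **Core.** For every `γ ∈ SL₂(ℤ)` the translate `(f(a·)) ∘ γ` is `(f ∘ γ')((a₁ τ + b)/d₁)`
for some `γ' ∈ SL₂(ℤ)`, and its expansion in `X_N` is obtained from the expansion `φ` of `f ∘ γ'`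
in `X_M` by a substitution `X ↦ ζᵏ X^(e+1)`. -/
theorem compSL_shiftFun_exp (hN : N = M * a * c) (ha : 0 < a) (hc : 0 < c) (ζ : Eˣ)
    (hζ : Units.map (ι : E →* ℂ) ζ = infRoot 1 N) (γ : SL(2, ℤ)) :
    ∃ (γ' : SL(2, ℤ)) (e : ℕ) (k : ℤ), ∀ (f : ℍ → ℂ) (φ : LaurentSeries E),
      InfExp M (compSL γ' f) (coeffMap ι φ) →
        InfExp N (compSL γ (shiftFun a f))
          (coeffMap ι (qExpand E (e + 1) (infTwist (ζ ^ k) φ))) := by
  have hM : 0 < M := Nat.pos_of_ne_zero (NeZero.ne M)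
  have hN0 : 0 < N := Nat.pos_of_ne_zero (NeZero.ne N)
  obtain ⟨γ', a₁, d₁, b, ha₁, hd₁, had, h00, h01, h10, h11⟩ := inf_exists_hnf a ha γ
  have he0 : 0 < a₁ * a₁ * c := Nat.mul_pos (Nat.mul_pos ha₁ ha₁) hc
  obtain ⟨e, he⟩ : ∃ e : ℕ, e + 1 = a₁ * a₁ * c := ⟨a₁ * a₁ * c - 1, by omega⟩
  refine ⟨γ', e, b * ((a₁ * c : ℕ) : ℤ), fun f φ hφ => ?_⟩
  have hrel : (e + 1) * (d₁ * M) = a₁ * N := by
    rw [he, hN, ← had]
    ring
  have h := hφ.comp_infAff (e := e + 1) (N := N) b ha₁ hd₁ hM hN0 hrel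
  have hroot : Units.map (ι : E →* ℂ) (ζ ^ (b * ((a₁ * c : ℕ) : ℤ))) = infRoot b (d₁ * M) :=
    shift_root ζ hζ b (Nat.mul_pos hd₁ hM) (Nat.mul_pos ha₁ hc) (by rw [hN, ← had]; ring)
  rw [coeffMap_qExpand, iact_coeffMap_infTwist, hroot]
  refine h.congr fun τ => ?_
  show f (γ' • infAff a₁ b d₁ τ) = f (infAff a 0 1 (γ • τ))
  rw [inf_aff_smul_eq ha ha₁ hd₁ γ γ' h00 h01 h10 h11 τ]

/-- The expansion of `f(aτ)` itself. -/
theorem infExp_shiftFun (hN : N = M * a * c) (ha : 0 < a) (hc : 0 < c) {f : ℍ → ℂ}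
    {φ : LaurentSeries ℂ} (hφ : InfExp M f φ) :
    haveI : NeZero (a * a * c) := ⟨(Nat.mul_pos (Nat.mul_pos ha ha) hc).ne'⟩
    InfExp N (shiftFun a f) (qExpand ℂ (a * a * c) φ) := by
  haveI : NeZero (a * a * c) := ⟨(Nat.mul_pos (Nat.mul_pos ha ha) hc).ne'⟩
  have hM : 0 < M := Nat.pos_of_ne_zero (NeZero.ne M)
  have hN0 : 0 < N := Nat.pos_of_ne_zero (NeZero.ne N)
  have h := hφ.comp_infAff (e := a * a * c) (N := N) 0 ha one_pos hM hN0
    (by rw [hN]; ring)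
  rw [infRoot_zero, infTwist_one] at h
  exact h

theorem conjDiag_mem_Gamma (hN : N = M * a * c) (ha : 0 < a) {γ : SL(2, ℤ)}
    (hγ : γ ∈ CongruenceSubgroup.Gamma N) (t : ℤ) (ht : γ 1 0 = (a : ℤ) * t) :
    conjDiag a γ t ht ∈ CongruenceSubgroup.Gamma M := by
  rw [CongruenceSubgroup.Gamma_mem] at hγ ⊢
  obtain ⟨h00, h01, h10, h11⟩ := hγ
  have hMN : (M : ℤ) ∣ (N : ℤ) := ⟨(a : ℤ) * c, by rw [hN]; push_cast; ring⟩
  have e00 : (N : ℤ) ∣ γ 0 0 - 1 := by
    have := (ZMod.intCast_eq_intCast_iff_dvd_sub 1 (γ 0 0) N).mp (by simpa using h00.symm)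
    exact this
  have e01 : (N : ℤ) ∣ γ 0 1 := (ZMod.intCast_zmod_eq_zero_iff_dvd _ _).mp h01
  have e10 : (N : ℤ) ∣ γ 1 0 := (ZMod.intCast_zmod_eq_zero_iff_dvd _ _).mp h10
  have e11 : (N : ℤ) ∣ γ 1 1 - 1 := by
    have := (ZMod.intCast_eq_intCast_iff_dvd_sub 1 (γ 1 1) N).mp (by simpa using h11.symm)
    exact this
  have ha0 : (a : ℤ) ≠ 0 := by exact_mod_cast ha.ne'
  refine ⟨?_, ?_, ?_, ?_⟩
  · have : (M : ℤ) ∣ γ 0 0 - 1 := hMN.trans e00
    have h := (ZMod.intCast_eq_intCast_iff_dvd_sub 1 (γ 0 0) M).mpr this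
    simpa [conjDiag] using h.symm
  · have : (M : ℤ) ∣ (a : ℤ) * γ 0 1 := (hMN.trans e01).mul_left _
    have h := (ZMod.intCast_zmod_eq_zero_iff_dvd _ _).mpr this
    simpa [conjDiag] using h
  · have : (M : ℤ) ∣ t := by
      obtain ⟨s, hs⟩ := e10
      rw [ht, hN] at hs
      push_cast at hs
      have h2 : (a : ℤ) * t = (a : ℤ) * ((M : ℤ) * (c * s)) := by rw [hs]; ring
      exact ⟨c * s, mul_left_cancel₀ ha0 h2⟩
    have h := (ZMod.intCast_zmod_eq_zero_iff_dvd _ _).mpr this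
    simpa [conjDiag] using h
  · have : (M : ℤ) ∣ γ 1 1 - 1 := hMN.trans e11
    have h := (ZMod.intCast_eq_intCast_iff_dvd_sub 1 (γ 1 1) M).mpr this
    simpa [conjDiag] using h.symm

/-- `f ∈ iactRing ι M ⟹ f(a·) ∈ iactRing ι (M a c)`. -/
theorem shiftFun_mem_iactRing (hN : N = M * a * c) (ha : 0 < a) (hc : 0 < c) (ζ : Eˣ)
    (hζ : Units.map (ι : E →* ℂ) ζ = infRoot 1 N) {f : ℍ → ℂ} (hf : f ∈ iactRing ι M) :
    shiftFun a f ∈ iactRing ι N := by
  obtain ⟨h0, h1, h2⟩ := hf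
  refine ⟨mdiff_shiftFun ha h0, fun γ hγ => ?_, fun γ => ?_⟩
  · have e10 : (N : ℤ) ∣ γ 1 0 :=
      (ZMod.intCast_zmod_eq_zero_iff_dvd _ _).mp (CongruenceSubgroup.Gamma_mem.mp hγ).2.2.1
    have haN : (a : ℤ) ∣ (N : ℤ) := ⟨(M : ℤ) * c, by rw [hN]; push_cast; ring⟩
    obtain ⟨t, ht⟩ := haN.trans e10
    rw [shiftFun_compSL_of_dvd ha γ t ht, h1 _ (conjDiag_mem_Gamma hN ha hγ t ht)]
  · obtain ⟨γ', e, k, h⟩ := compSL_shiftFun_exp (ι := ι) hN ha hc ζ hζ γ
    obtain ⟨φ, hφ⟩ := h2 γ'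
    exact ⟨_, h f φ hφ⟩

end Core

/-! ### the ring homomorphism `iactShift` -/

section Hom

variable {E : Type*} [Field E] [CharZero E] {ι : E →+* ℂ} {M N a c : ℕ} [NeZero M] [NeZero N]
  (hN : N = M * a * c) (ha : 0 < a) (hc : 0 < c) (ζ : Eˣ)
  (hζ : Units.map (ι : E →* ℂ) ζ = infRoot 1 N)

/-- `f ↦ f(a·) : iactRing ι M →+* iactRing ι (M a c)`. -/
def iactShift : iactRing ι M →+* iactRing ι N where
  toFun f := ⟨shiftFun a f, shiftFun_mem_iactRing hN ha hc ζ hζ f.2⟩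
  map_one' := rfl
  map_mul' _ _ := rfl
  map_zero' := rfl
  map_add' _ _ := rfl

@[simp]
theorem iactShift_apply (f : iactRing ι M) (τ : ℍ) :
    (iactShift hN ha hc ζ hζ f : ℍ → ℂ) τ = (f : ℍ → ℂ) (infAff a 0 1 τ) := rfl

theorem coe_iactShift (f : iactRing ι M) :
    (iactShift hN ha hc ζ hζ f : ℍ → ℂ) = shiftFun a (f : ℍ → ℂ) := rfl

/-- The `X_N`-expansion of `f(a·)` is `φ(X^(a a c))`, `φ` the `X_M`-expansion of `f`. -/
theorem iactExp_iactShift [NeZero (a * a * c)] (f : iactRing ι M) :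
    iactExp ι N (iactShift hN ha hc ζ hζ f) = qExpand E (a * a * c) (iactExp ι M f) := by
  apply iactExp_eq
  rw [coeffMap_qExpand]
  exact infExp_shiftFun hN ha hc (iactExp_spec f)

theorem iactShift_injective : Function.Injective (iactShift hN ha hc ζ hζ) := by
  haveI : NeZero (a * a * c) := ⟨(Nat.mul_pos (Nat.mul_pos ha ha) hc).ne'⟩
  intro f g h
  apply iactExp_injective (ι := ι) (M := M)
  apply qExpand_injective (R := E) (a * a * c)
  rw [← iactExp_iactShift hN ha hc ζ hζ, ← iactExp_iactShift hN ha hc ζ hζ, h]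

theorem iactShift_C (x : E) : iactShift hN ha hc ζ hζ (iactC ι M x) = iactC ι N x := rfl

/-- `f ↦ f(a·) : IActField ι M →+* IActField ι (M a c)`. -/
def iactFieldShift : IActField ι M →+* IActField ι N :=
  IsFractionRing.lift (g := (algebraMap (iactRing ι N) (IActField ι N)).comp
    (iactShift hN ha hc ζ hζ))
    ((IsFractionRing.injective (iactRing ι N) (IActField ι N)).comp
      (iactShift_injective hN ha hc ζ hζ))

@[simp]
theorem iactFieldShift_algebraMap (f : iactRing ι M) :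
    iactFieldShift hN ha hc ζ hζ (algebraMap (iactRing ι M) (IActField ι M) f)
      = algebraMap (iactRing ι N) (IActField ι N) (iactShift hN ha hc ζ hζ f) :=
  IsFractionRing.lift_algebraMap _ f

theorem iactFieldShift_C (x : E) :
    iactFieldShift hN ha hc ζ hζ (iactFC ι M x) = iactFC ι N x := by
  rw [iactFC, RingHom.comp_apply, iactFieldShift_algebraMap, iactShift_C]
  rfl

/-- The `X_N`-expansion of `x(a·)` is `φ(X^(a a c))`, `φ` the `X_M`-expansion of `x`. -/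
theorem iactFieldExp_iactFieldShift [NeZero (a * a * c)] (x : IActField ι M) :
    iactFieldExp ι N (iactFieldShift hN ha hc ζ hζ x)
      = qExpand E (a * a * c) (iactFieldExp ι M x) := by
  obtain ⟨f, g, hg, rfl⟩ := IsFractionRing.div_surjective (A := iactRing ι M) x
  rw [map_div₀, map_div₀, map_div₀, map_div₀, iactFieldShift_algebraMap,
    iactFieldShift_algebraMap, iactFieldExp_algebraMap, iactFieldExp_algebraMap,
    iactFieldExp_algebraMap, iactFieldExp_algebraMap, iactExp_iactShift, iactExp_iactShift]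

/-! ### translates -/

/-- **Translates of `f(a·)`.**  For every `γ ∈ SL₂(ℤ)` there are `γ' ∈ SL₂(ℤ)`, `e` and `k` with
`exp (γ • f(a·)) = (exp (γ' • f))(ζᵏ X^(e+1))`. -/
theorem iactShift_smul_eq (γ : SL(2, ℤ)) :
    ∃ (γ' : SL(2, ℤ)) (e : ℕ) (k : ℤ), ∀ f : iactRing ι M,
      iactExp ι N (γ • iactShift hN ha hc ζ hζ f)
        = qExpand E (e + 1) (infTwist (ζ ^ k) (iactExp ι M (γ' • f))) := by
  obtain ⟨γ', e, k, h⟩ := compSL_shiftFun_exp (ι := ι) hN ha hc ζ hζ γ⁻¹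
  refine ⟨γ'⁻¹, e, k, fun f => ?_⟩
  apply iactExp_eq
  have h1 : InfExp M (compSL γ' (f : ℍ → ℂ)) (coeffMap ι (iactExp ι M (γ'⁻¹ • f))) := by
    have h2 := iactExp_spec (γ'⁻¹ • f)
    refine h2.congr fun τ => ?_
    rw [iact_smul_apply, inv_inv]
    rfl
  exact h (f : ℍ → ℂ) _ h1

/-! ### bounded denominators -/

theorem isInt_qExpand_twist {𝒪 : ValuationSubring E} {u : E} (hu : 𝒪.valuation u = 1)
    (uu : Eˣ) (huu : (uu : E) = u) (e : ℕ) [NeZero e] {φ : LaurentSeries E} {w : E}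
    (h : IsInt 𝒪 (φ * HahnSeries.C w)) :
    IsInt 𝒪 (qExpand E e (infTwist uu φ) * HahnSeries.C w) := by
  intro k
  rw [coeff_mul_C_eq]
  by_cases hk : (e : ℤ) ∣ k
  · obtain ⟨m, rfl⟩ := hk
    rw [qExpand_coeff_mul, infTwist_coeff]
    have h1 := h m
    rw [coeff_mul_C_eq] at h1
    have h2 : ((uu ^ m : Eˣ) : E) ∈ 𝒪 := by
      rw [← 𝒪.valuation_le_one_iff, Units.val_zpow_eq_zpow_val, huu, map_zpow₀, hu, one_zpow]
    have := 𝒪.mul_mem _ _ h2 h1
    convert this using 1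
    ring
  · rw [qExpand_coeff_of_not_dvd e _ hk, zero_mul]
    exact 𝒪.zero_mem

variable (𝒪 : ValuationSubring E) {w₀ : E}

include hζ in
theorem shift_valuation_zeta_zpow (k : ℤ) : 𝒪.valuation (((ζ ^ k : Eˣ) : E)) = 1 := by
  have h1 : 𝒪.valuation ((ζ⁻¹ : Eˣ) : E) = 1 := iact_valuation_zeta 𝒪 ζ hζ
  have h2 : 𝒪.valuation (ζ : E) = 1 := by
    rw [Units.val_inv_eq_inv_val, map_inv₀, inv_eq_one] at h1
    exact h1
  rw [Units.val_zpow_eq_zpow_val, map_zpow₀, h2, one_zpow]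

/-- **BD-SHIFT.**  If all `SL₂(ℤ)`-translates of `f` have bounded denominators at level `M`, then
all `SL₂(ℤ)`-translates of `f(a·)` have bounded denominators at level `N = M a c`. -/
theorem isBd_smul_iactShift (f : iactRing ι M)
    (hf : ∀ γ : SL(2, ℤ), IsBd 𝒪 (iactFieldExp ι M) (iactFC ι M w₀)
      (γ • algebraMap (iactRing ι M) (IActField ι M) f))
    (γ : SL(2, ℤ)) :
    IsBd 𝒪 (iactFieldExp ι N) (iactFC ι N w₀)
      (γ • algebraMap (iactRing ι N) (IActField ι N) (iactShift hN ha hc ζ hζ f)) := by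
  obtain ⟨γ', e, k, h⟩ := iactShift_smul_eq hN ha hc ζ hζ γ
  obtain ⟨n, hn⟩ := hf γ'
  refine ⟨n, ?_⟩
  rw [iact_smul_algebraMap, map_mul, map_pow, iactFieldExp_algebraMap, iactFieldExp_C, h f,
    ← map_pow]
  rw [iact_smul_algebraMap, map_mul, map_pow, iactFieldExp_algebraMap, iactFieldExp_C,
    ← map_pow] at hn
  exact isInt_qExpand_twist (shift_valuation_zeta_zpow ζ hζ 𝒪 k) (ζ ^ k) rfl (e + 1) hn

/-- `f(a·)` lies in `H856.iactBd` at level `N = M a c` as soon as all translates of `f` have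
bounded denominators at level `M`. -/
theorem iactShift_mem_iactBd (hd : IsDiscrete 𝒪 w₀) (f : iactRing ι M)
    (hf : ∀ γ : SL(2, ℤ), IsBd 𝒪 (iactFieldExp ι M) (iactFC ι M w₀)
      (γ • algebraMap (iactRing ι M) (IActField ι M) f)) :
    algebraMap (iactRing ι N) (IActField ι N) (iactShift hN ha hc ζ hζ f)
      ∈ iactBd (ι := ι) (M := N) 𝒪 hd :=
  mem_iactBd_of_isBd 𝒪 hd (isBd_smul_iactShift hN ha hc ζ hζ 𝒪 f hf)

/-! ### field elements -/

/-- **Translates of `x(a·)`, field version.** -/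
theorem iactFieldShift_smul_eq (γ : SL(2, ℤ)) :
    ∃ (γ' : SL(2, ℤ)) (e : ℕ) (k : ℤ), ∀ x : IActField ι M,
      iactFieldExp ι N (γ • iactFieldShift hN ha hc ζ hζ x)
        = qExpand E (e + 1) (infTwist (ζ ^ k) (iactFieldExp ι M (γ' • x))) := by
  obtain ⟨γ', e, k, h⟩ := iactShift_smul_eq hN ha hc ζ hζ γ
  refine ⟨γ', e, k, fun x => ?_⟩
  obtain ⟨f, g, hg, rfl⟩ := IsFractionRing.div_surjective (A := iactRing ι M) x
  rw [map_div₀, smul_div₀', smul_div₀', iactFieldShift_algebraMap, iactFieldShift_algebraMap,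
    iact_smul_algebraMap, iact_smul_algebraMap, iact_smul_algebraMap, iact_smul_algebraMap,
    map_div₀, map_div₀, map_div₀, map_div₀, iactFieldExp_algebraMap, iactFieldExp_algebraMap,
    iactFieldExp_algebraMap, iactFieldExp_algebraMap, h f, h g]

theorem isBd_smul_iactFieldShift_aux {γ γ' : SL(2, ℤ)} {e : ℕ} {k : ℤ}
    (h : ∀ x : IActField ι M,
      iactFieldExp ι N (γ • iactFieldShift hN ha hc ζ hζ x)
        = qExpand E (e + 1) (infTwist (ζ ^ k) (iactFieldExp ι M (γ' • x))))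
    {U : IActField ι M} (hU : IsBd 𝒪 (iactFieldExp ι M) (iactFC ι M w₀) U) :
    IsBd 𝒪 (iactFieldExp ι N) (iactFC ι N w₀)
      (γ • iactFieldShift hN ha hc ζ hζ (γ'⁻¹ • U)) := by
  obtain ⟨n, hn⟩ := hU
  refine ⟨n, ?_⟩
  rw [map_mul, map_pow, iactFieldExp_C, h, smul_inv_smul, ← map_pow]
  rw [map_mul, map_pow, iactFieldExp_C, ← map_pow] at hn
  exact isInt_qExpand_twist (shift_valuation_zeta_zpow ζ hζ 𝒪 k) (ζ ^ k) rfl (e + 1) hn

/-- If all translates of `x` are quotients of elements with bounded denominators at level `M`,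
the same holds for `x(a·)` at level `N = M a c`. -/
theorem hasBd_smul_iactFieldShift (x : IActField ι M)
    (hx : ∀ γ : SL(2, ℤ), HasBd 𝒪 (iactFieldExp ι M) (iactFC ι M w₀) (γ • x))
    (γ : SL(2, ℤ)) :
    HasBd 𝒪 (iactFieldExp ι N) (iactFC ι N w₀) (γ • iactFieldShift hN ha hc ζ hζ x) := by
  obtain ⟨γ', e, k, h⟩ := iactFieldShift_smul_eq hN ha hc ζ hζ γ
  obtain ⟨U₁, U₂, hU₂, h1, h2, h3⟩ := hx γ'
  refine ⟨γ • iactFieldShift hN ha hc ζ hζ (γ'⁻¹ • U₁),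
    γ • iactFieldShift hN ha hc ζ hζ (γ'⁻¹ • U₂), ?_,
    isBd_smul_iactFieldShift_aux hN ha hc ζ hζ 𝒪 h h1,
    isBd_smul_iactFieldShift_aux hN ha hc ζ hζ 𝒪 h h2, ?_⟩
  · rw [Ne, smul_eq_zero_iff_eq, map_eq_zero, smul_eq_zero_iff_eq]
    exact hU₂
  · rw [← smul_mul', ← map_mul]
    congr 2
    rw [← h3, smul_mul', inv_smul_smul]

/-- **BD-SHIFT, field version**: `x ∈ iactBd` at level `M` implies `x(a·) ∈ iactBd` at level
`N = M a c`. -/
theorem iactFieldShift_mem_iactBd (hd : IsDiscrete 𝒪 w₀) {x : IActField ι M}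
    (hx : x ∈ iactBd (ι := ι) (M := M) 𝒪 hd) :
    iactFieldShift hN ha hc ζ hζ x ∈ iactBd (ι := ι) (M := N) 𝒪 hd := by
  rintro g ⟨γ, rfl⟩
  exact hasBd_smul_iactFieldShift hN ha hc ζ hζ 𝒪 x (fun γ' => hx _ ⟨γ', rfl⟩) γ

/-! ### `q`-expansion form and compatibility with the action -/

/-- If the `X_M`-expansion of `x` is `ψ(X^M)` (`ψ` the `q`-expansion), then the `X_N`-expansion of
`x(a·)` is `(ψ(q^a))(X^N)`. -/
theorem iactFieldExp_iactFieldShift_of_qExpand [NeZero a] (x : IActField ι M)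
    (ψ : LaurentSeries E) (hx : iactFieldExp ι M x = qExpand E M ψ) :
    iactFieldExp ι N (iactFieldShift hN ha hc ζ hζ x) = qExpand E N (qExpand E a ψ) := by
  haveI : NeZero (a * a * c) := ⟨(Nat.mul_pos (Nat.mul_pos ha ha) hc).ne'⟩
  haveI : NeZero (a * a * c * M) := ⟨(Nat.mul_pos (Nat.pos_of_ne_zero (NeZero.ne _))
    (Nat.pos_of_ne_zero (NeZero.ne M))).ne'⟩
  haveI : NeZero (N * a) := ⟨(Nat.mul_pos (Nat.pos_of_ne_zero (NeZero.ne N)) ha).ne'⟩
  rw [iactFieldExp_iactFieldShift, hx, qExpand_qExpand, qExpand_qExpand]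
  exact qExpand_congr (by rw [hN]; ring) ψ

include hN ha hc hζ in
/-- Transfer of the range of the expansion map: `ψ(X^M) ∈ range ⟹ (ψ(q^a))(X^N) ∈ range`. -/
theorem qExpand_mem_fieldRange_shift [NeZero a] {ψ : LaurentSeries E}
    (h : qExpand E M ψ ∈ (iactFieldExp ι M).fieldRange) :
    qExpand E N (qExpand E a ψ) ∈ (iactFieldExp ι N).fieldRange := by
  obtain ⟨x, hx⟩ := h
  exact ⟨iactFieldShift hN ha hc ζ hζ x,
    iactFieldExp_iactFieldShift_of_qExpand hN ha hc ζ hζ x ψ hx⟩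

/-- For `γ, γ'` with `γ' = diag(a,1) γ diag(a,1)⁻¹` (entrywise): `γ • f(a·) = (γ' • f)(a·)`. -/
theorem smul_iactShift_of_entries (γ γ' : SL(2, ℤ))
    (h00 : γ' 0 0 = γ 0 0) (h01 : γ' 0 1 = a * γ 0 1) (h10 : γ 1 0 = γ' 1 0 * a)
    (h11 : γ' 1 1 = γ 1 1) (f : iactRing ι M) :
    γ • iactShift hN ha hc ζ hζ f = iactShift hN ha hc ζ hζ (γ' • f) := by
  apply Subtype.ext
  show compSL γ⁻¹ (shiftFun a (f : ℍ → ℂ)) = shiftFun a (compSL γ'⁻¹ (f : ℍ → ℂ))
  refine shiftFun_compSL_of_entries ha γ⁻¹ γ'⁻¹ ?_ ?_ ?_ ?_ _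
  · rw [Matrix.SpecialLinearGroup.SL2_inv_expl γ, Matrix.SpecialLinearGroup.SL2_inv_expl γ']
    simpa using h11
  · rw [Matrix.SpecialLinearGroup.SL2_inv_expl γ, Matrix.SpecialLinearGroup.SL2_inv_expl γ']
    simp [h01]
  · rw [Matrix.SpecialLinearGroup.SL2_inv_expl γ, Matrix.SpecialLinearGroup.SL2_inv_expl γ']
    simp [h10]
  · rw [Matrix.SpecialLinearGroup.SL2_inv_expl γ, Matrix.SpecialLinearGroup.SL2_inv_expl γ']
    simpa using h00

/-- Field version of `smul_iactShift_of_entries`. -/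
theorem smul_iactFieldShift_of_entries (γ γ' : SL(2, ℤ))
    (h00 : γ' 0 0 = γ 0 0) (h01 : γ' 0 1 = a * γ 0 1) (h10 : γ 1 0 = γ' 1 0 * a)
    (h11 : γ' 1 1 = γ 1 1) (x : IActField ι M) :
    γ • iactFieldShift hN ha hc ζ hζ x = iactFieldShift hN ha hc ζ hζ (γ' • x) := by
  obtain ⟨f, g, hg, rfl⟩ := IsFractionRing.div_surjective (A := iactRing ι M) x
  rw [map_div₀, smul_div₀', smul_div₀', map_div₀, iactFieldShift_algebraMap,
    iactFieldShift_algebraMap, iact_smul_algebraMap, iact_smul_algebraMap, iact_smul_algebraMap,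
    iact_smul_algebraMap, iactFieldShift_algebraMap, iactFieldShift_algebraMap,
    smul_iactShift_of_entries hN ha hc ζ hζ γ γ' h00 h01 h10 h11,
    smul_iactShift_of_entries hN ha hc ζ hζ γ γ' h00 h01 h10 h11]

end Hom

/-! ### raising the level (`a = 1`) -/

section Raise

variable {E : Type*} [Field E] [CharZero E] {ι : E →+* ℂ} {M N c : ℕ} [NeZero M] [NeZero N]
  (hN : N = M * 1 * c) (hc : 0 < c) (ζ : Eˣ) (hζ : Units.map (ι : E →* ℂ) ζ = infRoot 1 N)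

/-- Raising the level commutes with the action of `SL₂(ℤ)`. -/
theorem smul_iactFieldShift_one (γ : SL(2, ℤ)) (x : IActField ι M) :
    γ • iactFieldShift hN one_pos hc ζ hζ x = iactFieldShift hN one_pos hc ζ hζ (γ • x) :=
  smul_iactFieldShift_of_entries hN one_pos hc ζ hζ γ γ rfl (by push_cast; ring)
    (by push_cast; ring) rfl x

/-- Raising the level: the `X_N`-expansion of `x` is `(ψ)(X^N)` if its `X_M`-expansion is
`ψ(X^M)`. -/
theorem iactFieldExp_raise_of_qExpand (x : IActField ι M) (ψ : LaurentSeries E)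
    (hx : iactFieldExp ι M x = qExpand E M ψ) :
    iactFieldExp ι N (iactFieldShift hN one_pos hc ζ hζ x) = qExpand E N ψ := by
  rw [iactFieldExp_iactFieldShift_of_qExpand hN one_pos hc ζ hζ x ψ hx, qExpand_one_apply]

end Raise

end Fermat.Agent.S48.H16
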